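import Fermat.Agent.S18.B12.H278.SF

/-!
# b2: globalisation of the local normality criterion (helper278)

* `eq_top_of_forall_prime` : an ideal of a PID containing a nonzero element and, for every prime
  `t`, an element not divisible by `t`, is the unit ideal ("ideal of denominators").
* `mem_range_of_isIntegral_of_forall_prime` : global form of
  `exists_smul_mem_range_of_isIntegral`.
* `sfIdemInt : SFIdemIntStatement` (Spec2, P2'') and
  `intClosedOfDiscr : IntClosedOfDiscrStatement` (Spec3, A8).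
-/

set_option autoImplicit false
set_option linter.style.haveILetI false
set_option linter.unusedSectionVars false

namespace Fermat.Agent.S18.B12.H278

open Module Polynomial Fermat.Agent.S37.H278

universe u v

/-- Ideal of denominators: an ideal of a PID which contains a nonzero element and is contained
in no `(t)`, `t` prime, is the unit ideal. -/
theorem eq_top_of_forall_prime {Λ : Type*} [CommRing Λ] [IsDomain Λ] [IsPrincipalIdealRing Λ]
    (J : Ideal Λ) (h0 : ∃ g₀ ∈ J, g₀ ≠ 0) (h : ∀ t : Λ, Prime t → ∃ g ∈ J, ¬ t ∣ g) : J = ⊤ := by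
  by_contra hJ
  obtain ⟨M, hM, hJM⟩ := Ideal.exists_le_maximal J hJ
  obtain ⟨g₀, hg₀J, hg₀⟩ := h0
  obtain ⟨t, ht⟩ := (IsPrincipalIdealRing.principal M).principal
  have ht' : M = Ideal.span {t} := ht
  have ht0 : t ≠ 0 := by
    rintro rfl
    have : g₀ ∈ M := hJM hg₀J
    rw [ht', Ideal.mem_span_singleton, zero_dvd_iff] at this
    exact hg₀ this
  have htp : Prime t := by
    rw [← Ideal.span_singleton_prime ht0, ← ht']
    exact hM.isPrime
  obtain ⟨g, hgJ, hg⟩ := h t htp
  apply hg
  have : g ∈ M := hJM hgJ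
  rwa [ht', Ideal.mem_span_singleton] at this

section Global

variable {Λ : Type*} [CommRing Λ] [IsDomain Λ] [IsPrincipalIdealRing Λ]
  {C : Type*} [CommRing C] [Algebra Λ C]
  {L : Type*} [CommRing L] [Algebra Λ L]

/-- **Normality criterion over a PID, global form.**  If the discriminant bound holds at every
prime `t` of `Λ`, every `x : L` integral over `Λ` which is a fraction of an element of `C`
lies in `C`. -/
theorem mem_range_of_isIntegral_of_forall_prime
    (hL : ∀ (g : Λ) (l : L), g ≠ 0 → g • l = 0 → l = 0)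
    (f : C →ₐ[Λ] L) (hf : Function.Injective f)
    {ι : Type*} [Fintype ι] [DecidableEq ι] (b : Basis ι Λ C)
    (hloc : ∀ t : Λ, Prime t → ∃ (s : ℕ) (y : Fin s → C),
      (∀ x : C, ∃ a : Fin s → Λ,
        x - ∑ i, a i • y i ∈ (Ideal.span {algebraMap Λ C t}).radical) ∧
      ¬ t ^ (Fintype.card ι - s + 1) ∣ Algebra.discr Λ b)
    (x : L) (hx : IsIntegral Λ x) (hx0 : ∃ g₀ : Λ, g₀ ≠ 0 ∧ g₀ • x ∈ f.range) :
    x ∈ f.range := by
  -- the ideal of denominators
  let J : Ideal Λ :=
    { carrier := {g | g • x ∈ f.range}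
      add_mem' := by
        intro a c ha hc
        show (a + c) • x ∈ f.range
        rw [add_smul]
        exact f.range.add_mem ha hc
      zero_mem' := by
        show (0 : Λ) • x ∈ f.range
        rw [zero_smul]
        exact f.range.zero_mem
      smul_mem' := by
        intro r a ha
        show (r • a) • x ∈ f.range
        rw [smul_assoc]
        exact f.range.smul_mem ha r }
  have hJ : J = ⊤ := by
    apply eq_top_of_forall_prime
    · obtain ⟨g₀, h0, h1⟩ := hx0
      exact ⟨g₀, h1, h0⟩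
    · intro t ht
      obtain ⟨s, y, hy, hd⟩ := hloc t ht
      obtain ⟨g, hg, hgx⟩ := exists_smul_mem_range_of_isIntegral ht hL f hf b s y hy hd x hx hx0
      exact ⟨g, hgx, hg⟩
  have h1 : (1 : Λ) ∈ J := by rw [hJ]; trivial
  have h2 : (1 : Λ) • x ∈ f.range := h1
  rwa [one_smul] at h2

end Global

/-- **P2''** (= frozen statement `SFIdemIntStatement` of `B12/Spec2.lean`, unfolded). -/
theorem sfIdemInt :
  ∀ (Λ : Type u) [CommRing Λ] [IsDomain Λ] [IsPrincipalIdealRing Λ] (t : Λ) (_ : Prime t)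
    (C : Type v) [CommRing C] [Algebra Λ C] (n : ℕ) (b : Module.Basis (Fin n) Λ C)
    (s : ℕ) (y : Fin s → C)
    (_ : ∀ x : C, ∃ a : Fin s → Λ,
        x - ∑ i, a i • y i ∈ (Ideal.span {algebraMap Λ C t}).radical),
    Algebra.discr Λ b ≠ 0 → ¬ t ^ (n - s + 1) ∣ Algebra.discr Λ b →
    ∀ (e : C) (g : Λ), g ≠ 0 → e * e = g • e → ∃ (h : Λ) (c : C), ¬ t ∣ h ∧ h • e = g • c := by
  intro Λ _ _ _ t ht C _ _ n b s y hy _ hd e g hg he
  classical
  haveI : Module.Free Λ C := Module.Free.of_basis b
  let L₀ := Localization (Algebra.algebraMapSubmonoid C (nonZeroDivisors Λ))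
  have hinj : Function.Injective (algebraMap C L₀) := algebraMap_injective_of_free (o := Λ) L₀
  have hunit : ∀ a : Λ, a ≠ 0 → IsUnit (algebraMap Λ L₀ a) := by
    intro a ha
    rw [IsScalarTower.algebraMap_apply Λ C L₀]
    exact IsLocalization.map_units L₀ (⟨algebraMap Λ C a, ⟨a, mem_nonZeroDivisors_of_ne_zero ha,
      rfl⟩⟩ : Algebra.algebraMapSubmonoid C (nonZeroDivisors Λ))
  have hL : ∀ (a : Λ) (l : L₀), a ≠ 0 → a • l = 0 → l = 0 := by
    intro a l ha h
    rw [Algebra.smul_def] at h
    exact ((hunit a ha).mul_right_eq_zero).mp h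
  obtain ⟨w, hw⟩ := (hunit g hg).exists_left_inv
  -- the idempotent `ε = e / g`
  set ε : L₀ := w * algebraMap C L₀ e with hε
  have hgε : g • ε = algebraMap C L₀ e := by
    rw [hε, Algebra.smul_def, ← mul_assoc, mul_comm _ w, hw, one_mul]
  have hidem : ε * ε = ε := by
    have h1 : g • g • (ε * ε - ε) = 0 := by
      have h2 : g • g • (ε * ε - ε) = (g • ε) * (g • ε) - g • (g • ε) := by
        rw [smul_sub, smul_sub, smul_mul_smul_comm, smul_smul, smul_smul]
      rw [h2, hgε, ← map_mul, he, Algebra.smul_def, map_mul, ← IsScalarTower.algebraMap_apply,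
        Algebra.smul_def, sub_self]
    exact sub_eq_zero.mp (hL g _ hg (hL g _ hg h1))
  have hx0 : ∃ g₀ : Λ, g₀ ≠ 0 ∧ g₀ • ε ∈ (IsScalarTower.toAlgHom Λ C L₀).range :=
    ⟨g, hg, e, hgε.symm⟩
  obtain ⟨h, hh, c, hc⟩ := exists_smul_mem_range_of_isIntegral ht hL
    (IsScalarTower.toAlgHom Λ C L₀) hinj b s y hy (by simpa using hd) ε
    (isIntegral_of_mul_self_eq hidem) hx0
  have hc' : algebraMap C L₀ c = h • ε := hc
  refine ⟨h, c, hh, ?_⟩
  apply hinj
  rw [Algebra.smul_def, Algebra.smul_def, map_mul, map_mul, ← IsScalarTower.algebraMap_apply,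
    ← IsScalarTower.algebraMap_apply, hc', ← hgε, Algebra.smul_def, Algebra.smul_def]
  ring

/-- **A8** (= frozen statement `IntClosedOfDiscrStatement` of `B12/Spec3.lean`, unfolded). -/
theorem intClosedOfDiscr :
  ∀ (Λ : Type u) [CommRing Λ] [IsDomain Λ] [IsPrincipalIdealRing Λ]
    (C : Type v) [CommRing C] [IsDomain C] [Algebra Λ C] (n : ℕ) (b : Module.Basis (Fin n) Λ C),
    Algebra.discr Λ b ≠ 0 →
    (∀ t : Λ, Prime t → ∃ (s : ℕ) (y : Fin s → C),
      (∀ c : C, ∃ a : Fin s → Λ,
        c - ∑ i, a i • y i ∈ (Ideal.span {algebraMap Λ C t}).radical) ∧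
      ¬ t ^ (n - s + 1) ∣ Algebra.discr Λ b) →
    IsIntegrallyClosed C := by
  intro Λ _ _ _ C _ _ _ n b _ hloc
  classical
  haveI : Module.Free Λ C := Module.Free.of_basis b
  haveI : Module.Finite Λ C := Module.Finite.of_basis b
  have hinjΛ : Function.Injective (algebraMap Λ C) := by
    rw [injective_iff_map_eq_zero]
    intro a ha
    by_contra ha0
    have : (1 : C) = 0 := smul_eq_zero_imp ha0 (by rw [Algebra.smul_def, ha, zero_mul])
    exact one_ne_zero this
  have hinj : Function.Injective (algebraMap C (FractionRing C)) :=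
    IsFractionRing.injective C (FractionRing C)
  have hL : ∀ (a : Λ) (l : FractionRing C), a ≠ 0 → a • l = 0 → l = 0 := by
    intro a l ha h
    rw [Algebra.smul_def, IsScalarTower.algebraMap_apply Λ C (FractionRing C)] at h
    rcases mul_eq_zero.mp h with h1 | h1
    · exfalso
      apply ha
      apply hinjΛ
      apply hinj
      rw [h1, map_zero, map_zero]
    · exact h1
  rw [isIntegrallyClosed_iff (FractionRing C)]
  intro x hx
  have hxΛ : IsIntegral Λ x := isIntegral_trans (R := Λ) (A := C) x hx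
  have hx0 : ∃ g₀ : Λ, g₀ ≠ 0 ∧
      g₀ • x ∈ (IsScalarTower.toAlgHom Λ C (FractionRing C)).range := by
    obtain ⟨⟨a, c⟩, hac⟩ := IsLocalization.surj (nonZeroDivisors C) x
    simp only at hac
    have hcalg : IsAlgebraic Λ (c : C) := (Algebra.IsIntegral.isIntegral (c : C)).isAlgebraic
    obtain ⟨r, hr, c', hc'⟩ := hcalg.exists_nonzero_dvd c.2
    refine ⟨r, hr, c' * a, ?_⟩
    show algebraMap C (FractionRing C) (c' * a) = r • x
    rw [Algebra.smul_def, IsScalarTower.algebraMap_apply Λ C (FractionRing C), hc', map_mul,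
      map_mul, ← hac]
    ring
  obtain ⟨y, hy⟩ := mem_range_of_isIntegral_of_forall_prime hL
    (IsScalarTower.toAlgHom Λ C (FractionRing C)) hinj b
    (by simpa using hloc) x hxΛ hx0
  exact ⟨y, hy⟩

end Fermat.Agent.S18.B12.H278
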