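import Fermat.Agent.S18.B12.Spec3
import Fermat.Agent.S18.B12.H278.Global

/-!
# b2 (helper278): the frozen statements of `B12/Spec.lean`, `Spec2.lean`, `Spec3.lean` proved in
`H278/SF.lean` and `H278/Global.lean`, at their frozen names.
-/

set_option autoImplicit false

namespace Fermat.Agent.S18.B12.H278

universe u v

theorem sfLattice_frozen : SFLatticeStatement.{u, v} := sfLattice.{u, v}

theorem sfIdem_frozen : SFIdemStatement.{u, v} := sfIdem.{u, v}

theorem sfIdemInt_frozen : SFIdemIntStatement.{u, v} := sfIdemInt.{u, v}

theorem intClosedOfDiscr_frozen : IntClosedOfDiscrStatement.{u, v} := intClosedOfDiscr.{u, v}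

end Fermat.Agent.S18.B12.H278
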